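/-
S24, package AN-TAYLOR (helper92): the Taylor-series toolkit for `Fermat.Agent.S24.taylorAt`.

* `taylorAt τ₀` is additive and multiplicative on holomorphic functions (`MDiff`);
* `taylorAt τ₀ f = 0 ↔ f = 0` (identity theorem on the upper half plane);
* `(taylorAt τ₀ f).order = analyticOrderAt (f ∘ ofComplex) τ₀`;
* Möbius invariance: the order of `τ ↦ f (γ • τ)` at `τ₀` is the order of `f` at `γ • τ₀`;
* multiplier lemma: if `γ • τ₀ = τ₀` and `f ∘ γ = f ≠ 0`, then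
  `(denom γ τ₀ ^ 2) ^ order = 1`.
-/
import Fermat.Agent.S24.ModDefs

set_option autoImplicit false

open UpperHalfPlane Filter Topology
open scoped MatrixGroups Manifold

noncomputable section

namespace Fermat.Agent.S24.H92

open Fermat.Agent.S24

/-! ### Analyticity of `f ∘ ofComplex` -/

theorem isOpen_upperHalfPlaneSet' : IsOpen {z : ℂ | 0 < z.im} :=
  isOpen_lt continuous_const Complex.continuous_im

theorem differentiableOn_comp_ofComplex {f : ℍ → ℂ} (hf : MDiff f) :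
    DifferentiableOn ℂ (f ∘ ofComplex) {z : ℂ | 0 < z.im} :=
  UpperHalfPlane.mdifferentiable_iff.mp hf

theorem analyticAt_comp_ofComplex {f : ℍ → ℂ} (hf : MDiff f) {z : ℂ} (hz : 0 < z.im) :
    AnalyticAt ℂ (f ∘ ofComplex) z :=
  (differentiableOn_comp_ofComplex hf).analyticAt (isOpen_upperHalfPlaneSet'.mem_nhds hz)

theorem analyticAt_comp_ofComplex_coe {f : ℍ → ℂ} (hf : MDiff f) (τ₀ : ℍ) :
    AnalyticAt ℂ (f ∘ ofComplex) (τ₀ : ℂ) :=
  analyticAt_comp_ofComplex hf τ₀.im_pos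

theorem analyticOnNhd_comp_ofComplex {f : ℍ → ℂ} (hf : MDiff f) :
    AnalyticOnNhd ℂ (f ∘ ofComplex) {z : ℂ | 0 < z.im} :=
  fun _ hz => analyticAt_comp_ofComplex hf hz

/-! ### Coefficients and ring-homomorphism properties -/

@[simp] theorem coeff_taylorAt (τ₀ : ℍ) (f : ℍ → ℂ) (n : ℕ) :
    (taylorAt τ₀ f).coeff n = iteratedDeriv n (f ∘ ofComplex) (τ₀ : ℂ) / (n.factorial : ℂ) := by
  simp [taylorAt]

theorem taylorAt_add (τ₀ : ℍ) {f g : ℍ → ℂ} (hf : MDiff f) (hg : MDiff g) :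
    taylorAt τ₀ (f + g) = taylorAt τ₀ f + taylorAt τ₀ g := by
  ext n
  have h : (f + g) ∘ ofComplex = f ∘ ofComplex + g ∘ ofComplex := rfl
  simp only [coeff_taylorAt, map_add, h,
    iteratedDeriv_add (analyticAt_comp_ofComplex_coe hf τ₀).contDiffAt
      (analyticAt_comp_ofComplex_coe hg τ₀).contDiffAt, add_div]

theorem taylorAt_mul (τ₀ : ℍ) {f g : ℍ → ℂ} (hf : MDiff f) (hg : MDiff g) :
    taylorAt τ₀ (f * g) = taylorAt τ₀ f * taylorAt τ₀ g := by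
  ext n
  have h : (f * g) ∘ ofComplex = (f ∘ ofComplex) * (g ∘ ofComplex) := rfl
  simp only [coeff_taylorAt, h,
    iteratedDeriv_mul (analyticAt_comp_ofComplex_coe hf τ₀).contDiffAt
      (analyticAt_comp_ofComplex_coe hg τ₀).contDiffAt, PowerSeries.coeff_mul,
    Finset.Nat.sum_antidiagonal_eq_sum_range_succ_mk, Nat.succ_eq_add_one, Finset.sum_div]
  refine Finset.sum_congr rfl fun i hi ↦ ?_
  have hi' : i ≤ n := Nat.lt_succ_iff.mp (Finset.mem_range.mp hi)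
  rw [Nat.cast_choose ℂ hi']
  have h1 : (i.factorial : ℂ) ≠ 0 := Nat.cast_ne_zero.mpr i.factorial_ne_zero
  have h2 : ((n - i).factorial : ℂ) ≠ 0 := Nat.cast_ne_zero.mpr (n - i).factorial_ne_zero
  have h3 : (n.factorial : ℂ) ≠ 0 := Nat.cast_ne_zero.mpr n.factorial_ne_zero
  field_simp

theorem taylorAt_const (τ₀ : ℍ) (c : ℂ) : taylorAt τ₀ (fun _ => c) = PowerSeries.C c := by
  ext n
  have h : (fun _ : ℍ => c) ∘ ofComplex = fun _ : ℂ => c := rfl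
  rw [coeff_taylorAt, h, iteratedDeriv_const, PowerSeries.coeff_C]
  split_ifs with hn
  · subst hn; simp
  · simp

theorem taylorAt_zero (τ₀ : ℍ) : taylorAt τ₀ (0 : ℍ → ℂ) = 0 := by
  have h : (0 : ℍ → ℂ) = fun _ => (0 : ℂ) := rfl
  rw [h, taylorAt_const, map_zero]

theorem taylorAt_one (τ₀ : ℍ) : taylorAt τ₀ (1 : ℍ → ℂ) = 1 := by
  have h : (1 : ℍ → ℂ) = fun _ => (1 : ℂ) := rfl
  rw [h, taylorAt_const, map_one]

theorem mdiff_const' (c : ℂ) : MDiff (fun _ : ℍ => c) := mdifferentiable_const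

theorem taylorAt_smul (τ₀ : ℍ) (c : ℂ) {f : ℍ → ℂ} (hf : MDiff f) :
    taylorAt τ₀ (c • f) = c • taylorAt τ₀ f := by
  have h : c • f = (fun _ : ℍ => c) * f := rfl
  rw [h, taylorAt_mul τ₀ (mdiff_const' c) hf, taylorAt_const, PowerSeries.smul_eq_C_mul]

theorem taylorAt_neg (τ₀ : ℍ) {f : ℍ → ℂ} (hf : MDiff f) :
    taylorAt τ₀ (-f) = -taylorAt τ₀ f := by
  have h : -f = (-1 : ℂ) • f := by ext; simp
  rw [h, taylorAt_smul τ₀ _ hf]
  simp

theorem taylorAt_sub (τ₀ : ℍ) {f g : ℍ → ℂ} (hf : MDiff f) (hg : MDiff g) :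
    taylorAt τ₀ (f - g) = taylorAt τ₀ f - taylorAt τ₀ g := by
  rw [sub_eq_add_neg, taylorAt_add τ₀ hf hg.neg, taylorAt_neg τ₀ hg, sub_eq_add_neg]

theorem taylorAt_pow (τ₀ : ℍ) {f : ℍ → ℂ} (hf : MDiff f) (n : ℕ) :
    taylorAt τ₀ (f ^ n) = taylorAt τ₀ f ^ n := by
  induction n with
  | zero => simpa using taylorAt_one τ₀
  | succ n ih => rw [pow_succ, taylorAt_mul τ₀ (hf.pow n) hf, ih, pow_succ]

theorem mdiff_finset_sum {ι : Type*} (s : Finset ι) (f : ι → ℍ → ℂ) (hf : ∀ i ∈ s, MDiff (f i)) :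
    MDiff (∑ i ∈ s, f i) := by
  classical
  induction s using Finset.induction_on with
  | empty =>
    rw [Finset.sum_empty]
    exact mdiff_const' 0
  | insert a s ha ih =>
    rw [Finset.sum_insert ha]
    exact (hf a (Finset.mem_insert_self a s)).add (ih fun i hi => hf i (Finset.mem_insert_of_mem hi))

theorem mdiff_finset_prod {ι : Type*} (s : Finset ι) (f : ι → ℍ → ℂ) (hf : ∀ i ∈ s, MDiff (f i)) :
    MDiff (∏ i ∈ s, f i) := by
  classical
  induction s using Finset.induction_on with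
  | empty =>
    rw [Finset.prod_empty]
    exact mdiff_const' 1
  | insert a s ha ih =>
    rw [Finset.prod_insert ha]
    exact (hf a (Finset.mem_insert_self a s)).mul (ih fun i hi => hf i (Finset.mem_insert_of_mem hi))

theorem taylorAt_sum (τ₀ : ℍ) {ι : Type*} (s : Finset ι) (f : ι → ℍ → ℂ)
    (hf : ∀ i ∈ s, MDiff (f i)) :
    taylorAt τ₀ (∑ i ∈ s, f i) = ∑ i ∈ s, taylorAt τ₀ (f i) := by
  classical
  induction s using Finset.induction_on with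
  | empty => simpa using taylorAt_zero τ₀
  | insert a s ha ih =>
    rw [Finset.sum_insert ha, Finset.sum_insert ha,
      taylorAt_add τ₀ (hf a (Finset.mem_insert_self a s))
        (mdiff_finset_sum s f fun i hi => hf i (Finset.mem_insert_of_mem hi)),
      ih fun i hi => hf i (Finset.mem_insert_of_mem hi)]

theorem taylorAt_prod (τ₀ : ℍ) {ι : Type*} (s : Finset ι) (f : ι → ℍ → ℂ)
    (hf : ∀ i ∈ s, MDiff (f i)) :
    taylorAt τ₀ (∏ i ∈ s, f i) = ∏ i ∈ s, taylorAt τ₀ (f i) := by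
  classical
  induction s using Finset.induction_on with
  | empty => simpa using taylorAt_one τ₀
  | insert a s ha ih =>
    rw [Finset.prod_insert ha, Finset.prod_insert ha,
      taylorAt_mul τ₀ (hf a (Finset.mem_insert_self a s))
        (mdiff_finset_prod s f fun i hi => hf i (Finset.mem_insert_of_mem hi)),
      ih fun i hi => hf i (Finset.mem_insert_of_mem hi)]

theorem taylorAt_congr (τ₀ : ℍ) {f g : ℍ → ℂ} (h : f = g) : taylorAt τ₀ f = taylorAt τ₀ g := by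
  rw [h]

/-! ### Order -/

/-- The order of the Taylor series is the analytic order. -/
theorem order_taylorAt (τ₀ : ℍ) {f : ℍ → ℂ} (hf : MDiff f) :
    (taylorAt τ₀ f).order = analyticOrderAt (f ∘ ofComplex) (τ₀ : ℂ) := by
  refine ENat.eq_of_forall_natCast_le_iff fun n => ?_
  rw [natCast_le_analyticOrderAt_iff_iteratedDeriv_eq_zero (analyticAt_comp_ofComplex_coe hf τ₀)]
  constructor
  · intro h i hi
    have h1 : (taylorAt τ₀ f).coeff i = 0 :=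
      PowerSeries.coeff_of_lt_order i (lt_of_lt_of_le (by exact_mod_cast hi) h)
    rw [coeff_taylorAt, div_eq_zero_iff] at h1
    rcases h1 with h1 | h1
    · exact h1
    · exact absurd h1 (Nat.cast_ne_zero.mpr i.factorial_ne_zero)
  · intro h
    refine PowerSeries.nat_le_order _ n fun i hi => ?_
    rw [coeff_taylorAt, h i hi, zero_div]

/-- Identity theorem: a holomorphic function on `ℍ` with zero Taylor series at one point is
zero. -/
theorem taylorAt_eq_zero_iff (τ₀ : ℍ) {f : ℍ → ℂ} (hf : MDiff f) :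
    taylorAt τ₀ f = 0 ↔ f = 0 := by
  constructor
  · intro h
    have h1 : analyticOrderAt (f ∘ ofComplex) (τ₀ : ℂ) = ⊤ := by
      rw [← order_taylorAt τ₀ hf, h, PowerSeries.order_zero]
    have h2 : ∀ᶠ z in 𝓝 (τ₀ : ℂ), (f ∘ ofComplex) z = 0 := analyticOrderAt_eq_top.mp h1
    have hconn : IsPreconnected {z : ℂ | 0 < z.im} :=
      (convex_halfSpace_im_gt 0).isPreconnected
    have h3 := (analyticOnNhd_comp_ofComplex hf).eqOn_zero_of_preconnected_of_eventuallyEq_zero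
      hconn (show (τ₀ : ℂ) ∈ {z : ℂ | 0 < z.im} from τ₀.im_pos) h2
    funext τ
    have := h3 (show (τ : ℂ) ∈ {z : ℂ | 0 < z.im} from τ.im_pos)
    simpa [ofComplex_apply] using this
  · rintro rfl
    exact taylorAt_zero τ₀

theorem order_taylorAt_ne_top (τ₀ : ℍ) {f : ℍ → ℂ} (hf : MDiff f) (hne : f ≠ 0) :
    (taylorAt τ₀ f).order ≠ ⊤ := by
  rw [Ne, PowerSeries.order_eq_top, taylorAt_eq_zero_iff τ₀ hf]
  exact hne

/-! ### Möbius transformations -/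

/-- The Möbius transformation of `γ` as a function on `ℂ`. -/
def mobC (γ : SL(2, ℤ)) (z : ℂ) : ℂ :=
  (((γ 0 0 : ℤ) : ℂ) * z + ((γ 0 1 : ℤ) : ℂ)) / (((γ 1 0 : ℤ) : ℂ) * z + ((γ 1 1 : ℤ) : ℂ))

theorem coe_smul_eq_mobC (γ : SL(2, ℤ)) (τ : ℍ) : ((γ • τ : ℍ) : ℂ) = mobC γ τ := by
  rw [UpperHalfPlane.coe_specialLinearGroup_apply]
  simp [mobC]

theorem denom_eq (γ : SL(2, ℤ)) (τ : ℍ) :
    denom (γ : GL (Fin 2) ℝ) τ = ((γ 1 0 : ℤ) : ℂ) * τ + ((γ 1 1 : ℤ) : ℂ) := by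
  simp [denom]

theorem denom_ne_zero' (γ : SL(2, ℤ)) (τ : ℍ) :
    ((γ 1 0 : ℤ) : ℂ) * τ + ((γ 1 1 : ℤ) : ℂ) ≠ 0 := by
  rw [← denom_eq]
  exact denom_ne_zero _ τ

theorem hasDerivAt_mobC (γ : SL(2, ℤ)) (τ : ℍ) :
    HasDerivAt (mobC γ) (1 / (((γ 1 0 : ℤ) : ℂ) * τ + ((γ 1 1 : ℤ) : ℂ)) ^ 2) (τ : ℂ) := by
  have hd := denom_ne_zero' γ τ
  have h1 : HasDerivAt (fun z : ℂ => ((γ 0 0 : ℤ) : ℂ) * z + ((γ 0 1 : ℤ) : ℂ))
      ((γ 0 0 : ℤ) : ℂ) (τ : ℂ) := by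
    simpa using ((hasDerivAt_id (τ : ℂ)).const_mul ((γ 0 0 : ℤ) : ℂ)).add_const ((γ 0 1 : ℤ) : ℂ)
  have h2 : HasDerivAt (fun z : ℂ => ((γ 1 0 : ℤ) : ℂ) * z + ((γ 1 1 : ℤ) : ℂ))
      ((γ 1 0 : ℤ) : ℂ) (τ : ℂ) := by
    simpa using ((hasDerivAt_id (τ : ℂ)).const_mul ((γ 1 0 : ℤ) : ℂ)).add_const ((γ 1 1 : ℤ) : ℂ)
  have h3 := h1.div h2 hd
  refine h3.congr_deriv ?_
  have hdet : ((γ 0 0 : ℤ) : ℂ) * ((γ 1 1 : ℤ) : ℂ) - ((γ 0 1 : ℤ) : ℂ) * ((γ 1 0 : ℤ) : ℂ) = 1 := by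
    have := γ.det_coe
    rw [Matrix.det_fin_two] at this
    exact_mod_cast this
  field_simp
  linear_combination hdet

theorem analyticAt_mobC (γ : SL(2, ℤ)) (τ : ℍ) : AnalyticAt ℂ (mobC γ) (τ : ℂ) := by
  have hd := denom_ne_zero' γ τ
  unfold mobC
  fun_prop (disch := exact hd)

theorem comp_smul_eventuallyEq (γ : SL(2, ℤ)) (f : ℍ → ℂ) (τ₀ : ℍ) :
    ((fun τ : ℍ => f (γ • τ)) ∘ ofComplex) =ᶠ[𝓝 (τ₀ : ℂ)] (f ∘ ofComplex) ∘ mobC γ := by
  filter_upwards [isOpen_upperHalfPlaneSet'.mem_nhds τ₀.im_pos] with z hz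
  have h1 : ofComplex z = ⟨z, hz⟩ := ofComplex_apply_of_im_pos hz
  simp only [Function.comp_apply, h1]
  congr 1
  rw [← coe_smul_eq_mobC γ ⟨z, hz⟩, ofComplex_apply]

theorem mdiff_comp_smul (γ : SL(2, ℤ)) {f : ℍ → ℂ} (hf : MDiff f) :
    MDiff fun τ : ℍ => f (γ • τ) :=
  hf.comp (UpperHalfPlane.mdifferentiable_smul (g := (γ : GL (Fin 2) ℝ)) (by simp))

/-- Möbius invariance of the order. -/
theorem order_taylorAt_smul (γ : SL(2, ℤ)) (τ₀ : ℍ) {f : ℍ → ℂ} (hf : MDiff f) :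
    (taylorAt τ₀ fun τ => f (γ • τ)).order = (taylorAt (γ • τ₀) f).order := by
  have hfγ : MDiff fun τ : ℍ => f (γ • τ) := mdiff_comp_smul γ hf
  rw [order_taylorAt τ₀ hfγ, order_taylorAt (γ • τ₀) hf,
    analyticOrderAt_congr (comp_smul_eventuallyEq γ f τ₀),
    analyticOrderAt_comp_of_deriv_ne_zero (analyticAt_mobC γ τ₀), coe_smul_eq_mobC]
  rw [(hasDerivAt_mobC γ τ₀).deriv]
  exact one_div_ne_zero (pow_ne_zero 2 (denom_ne_zero' γ τ₀))

theorem order_taylorAt_smul_of_fixed (γ : SL(2, ℤ)) (τ₀ : ℍ) (hfix : γ • τ₀ = τ₀) {f : ℍ → ℂ}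
    (hf : MDiff f) : (taylorAt τ₀ fun τ => f (γ • τ)).order = (taylorAt τ₀ f).order := by
  rw [order_taylorAt_smul γ τ₀ hf, hfix]

end Fermat.Agent.S24.H92
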