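/-
S24, package AN-TAYLOR (helper92), part 2: the multiplier lemma.

If `γ ∈ SL(2, ℤ)` fixes `τ₀` and the nonzero holomorphic function `f` on `ℍ` is `γ`-invariant,
then `(denom γ τ₀ ^ 2) ^ m = 1` for `m` the order of vanishing of `f` at `τ₀`.  Consequences:
at `i` (stabiliser generated by `S`) and at `ρ` (stabiliser generated by `S * T`):
`f ∘ S ^ k = f → 2 ∣ k * m` and `f ∘ (S * T) ^ k = f → 3 ∣ k * m`.
-/
import Fermat.Agent.S24.H92.Taylor
import Fermat.Agent.S24.H64.JBasic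

set_option autoImplicit false

open UpperHalfPlane Filter Topology
open scoped MatrixGroups Manifold

noncomputable section

namespace Fermat.Agent.S24.H92

open Fermat.Agent.S24

/-- The automorphy factor `c z + d` as a function on `ℂ`. -/
def denC (γ : SL(2, ℤ)) (z : ℂ) : ℂ := ((γ 1 0 : ℤ) : ℂ) * z + ((γ 1 1 : ℤ) : ℂ)

theorem denC_coe (γ : SL(2, ℤ)) (τ : ℍ) : denC γ τ = denom (γ : GL (Fin 2) ℝ) τ :=
  (denom_eq γ τ).symm

theorem denC_ne_zero (γ : SL(2, ℤ)) (τ : ℍ) : denC γ τ ≠ 0 := denom_ne_zero' γ τ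

theorem mobC_eq (γ : SL(2, ℤ)) (z : ℂ) :
    mobC γ z = (((γ 0 0 : ℤ) : ℂ) * z + ((γ 0 1 : ℤ) : ℂ)) / denC γ z := rfl

theorem det_eq_one_C (γ : SL(2, ℤ)) :
    ((γ 0 0 : ℤ) : ℂ) * ((γ 1 1 : ℤ) : ℂ) - ((γ 0 1 : ℤ) : ℂ) * ((γ 1 0 : ℤ) : ℂ) = 1 := by
  have := γ.det_coe
  rw [Matrix.det_fin_two] at this
  exact_mod_cast this

/-- `γ z - γ w = (z - w) / ((c z + d) (c w + d))`. -/
theorem mobC_sub_mobC (γ : SL(2, ℤ)) {z w : ℂ} (hz : denC γ z ≠ 0) (hw : denC γ w ≠ 0) :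
    mobC γ z - mobC γ w = (z - w) / (denC γ z * denC γ w) := by
  have hdet := det_eq_one_C γ
  rw [mobC_eq, mobC_eq, div_sub_div _ _ hz hw]
  congr 1
  unfold denC
  linear_combination (z - w) * hdet

/-- Cocycle relation for the automorphy factor. -/
theorem denC_mul (γ δ : SL(2, ℤ)) {z : ℂ} (hz : denC δ z ≠ 0) :
    denC (γ * δ) z = denC γ (mobC δ z) * denC δ z := by
  have h10 : ((γ * δ) 1 0 : ℤ) = γ 1 0 * δ 0 0 + γ 1 1 * δ 1 0 := by
    simp [Matrix.SpecialLinearGroup.coe_mul, Matrix.mul_apply, Fin.sum_univ_two]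
  have h11 : ((γ * δ) 1 1 : ℤ) = γ 1 0 * δ 0 1 + γ 1 1 * δ 1 1 := by
    simp [Matrix.SpecialLinearGroup.coe_mul, Matrix.mul_apply, Fin.sum_univ_two]
  rw [mobC_eq]
  unfold denC at hz ⊢
  rw [h10, h11]
  push_cast
  field_simp
  ring

theorem pow_smul_of_fixed (γ : SL(2, ℤ)) (τ₀ : ℍ) (hfix : γ • τ₀ = τ₀) (k : ℕ) :
    (γ ^ k) • τ₀ = τ₀ := by
  induction k with
  | zero => simp
  | succ k ih => rw [pow_succ, mul_smul, hfix, ih]

theorem denC_pow_of_fixed (γ : SL(2, ℤ)) (τ₀ : ℍ) (hfix : γ • τ₀ = τ₀) (k : ℕ) :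
    denC (γ ^ k) τ₀ = denC γ τ₀ ^ k := by
  induction k with
  | zero => simp [denC]
  | succ k ih =>
    rw [pow_succ, denC_mul _ _ (denC_ne_zero γ τ₀), ← coe_smul_eq_mobC, hfix, ih, pow_succ]

/-- **Multiplier lemma.** -/
theorem multiplier_pow_order (γ : SL(2, ℤ)) (τ₀ : ℍ) (hfix : γ • τ₀ = τ₀) {f : ℍ → ℂ}
    (hf : MDiff f) (hne : f ≠ 0) (hinv : ∀ τ, f (γ • τ) = f τ) :
    (denC γ τ₀ ^ 2) ^ (taylorAt τ₀ f).order.toNat = 1 := by
  set m : ℕ := (taylorAt τ₀ f).order.toNat with hm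
  have hord : analyticOrderAt (f ∘ ofComplex) (τ₀ : ℂ) = m := by
    rw [← order_taylorAt τ₀ hf, hm, ENat.natCast_toNat (order_taylorAt_ne_top τ₀ hf hne)]
  obtain ⟨G, hGa, hGne, hG⟩ :=
    (analyticAt_comp_ofComplex_coe hf τ₀).analyticOrderAt_eq_natCast.mp hord
  have hfixC : mobC γ τ₀ = τ₀ := by rw [← coe_smul_eq_mobC, hfix]
  have hd0 : denC γ τ₀ ≠ 0 := denC_ne_zero γ τ₀
  have hcont : ContinuousAt (mobC γ) (τ₀ : ℂ) := (analyticAt_mobC γ τ₀).continuousAt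
  have hdcont : ContinuousAt (denC γ) (τ₀ : ℂ) := by
    unfold denC
    fun_prop
  -- invariance of `f ∘ ofComplex` under the Möbius map, near `τ₀`
  have hinv' : ∀ᶠ z in 𝓝 (τ₀ : ℂ), (f ∘ ofComplex) (mobC γ z) = (f ∘ ofComplex) z := by
    have h1 := comp_smul_eventuallyEq γ f τ₀
    have h2 : (fun τ : ℍ => f (γ • τ)) = f := funext hinv
    rw [h2] at h1
    filter_upwards [h1] with z hz
    exact hz.symm
  -- the local factorisation transported by the Möbius map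
  have hG' : ∀ᶠ z in 𝓝 (τ₀ : ℂ),
      (f ∘ ofComplex) (mobC γ z) = (mobC γ z - τ₀) ^ m • G (mobC γ z) := by
    have : Tendsto (mobC γ) (𝓝 (τ₀ : ℂ)) (𝓝 (τ₀ : ℂ)) := by
      have := hcont.tendsto
      rwa [hfixC] at this
    exact this.eventually hG
  have hdne : ∀ᶠ z in 𝓝 (τ₀ : ℂ), denC γ z ≠ 0 := hdcont.eventually_ne hd0
  -- the auxiliary continuous function
  set B : ℂ → ℂ := fun z => G (mobC γ z) / (denC γ z * denC γ τ₀) ^ m - G z with hB
  have hBcont : ContinuousAt B (τ₀ : ℂ) := by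
    have hG1 : ContinuousAt (fun z => G (mobC γ z)) (τ₀ : ℂ) := by
      have : ContinuousAt G (mobC γ τ₀) := by rw [hfixC]; exact hGa.continuousAt
      exact ContinuousAt.comp (f := mobC γ) (g := G) this hcont
    have hden : ContinuousAt (fun z => (denC γ z * denC γ τ₀) ^ m) (τ₀ : ℂ) :=
      (hdcont.mul continuousAt_const).pow m
    exact (hG1.div hden (pow_ne_zero m (mul_ne_zero hd0 hd0))).sub hGa.continuousAt
  have hBzero : ∀ᶠ z in 𝓝[≠] (τ₀ : ℂ), B z = 0 := by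
    have hall : ∀ᶠ z in 𝓝 (τ₀ : ℂ), z ≠ (τ₀ : ℂ) → B z = 0 := by
      filter_upwards [hinv', hG', hG, hdne] with z h1 h2 h3 h4 hz
      have hsub : mobC γ z - τ₀ = (z - τ₀) / (denC γ z * denC γ τ₀) := by
        conv_lhs => rw [← hfixC]
        exact mobC_sub_mobC γ h4 hd0
      rw [h2, h3, hsub, div_pow, smul_eq_mul, smul_eq_mul] at h1
      have hz' : (z - (τ₀ : ℂ)) ^ m ≠ 0 := pow_ne_zero m (sub_ne_zero.mpr hz)
      have hden' : (denC γ z * denC γ τ₀) ^ m ≠ 0 := pow_ne_zero m (mul_ne_zero h4 hd0)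
      have h5 : G (mobC γ z) / (denC γ z * denC γ τ₀) ^ m = G z := by
        apply mul_left_cancel₀ hz'
        rw [← h1]
        field_simp
      simp only [hB, h5, sub_self]
    exact eventually_nhdsWithin_iff.mpr hall
  have hB0 : B (τ₀ : ℂ) = 0 := by
    have h1 : Tendsto B (𝓝[≠] (τ₀ : ℂ)) (𝓝 (B τ₀)) :=
      tendsto_nhdsWithin_of_tendsto_nhds hBcont.tendsto
    have h2 : Tendsto B (𝓝[≠] (τ₀ : ℂ)) (𝓝 0) :=
      tendsto_const_nhds.congr' (hBzero.mono fun z hz => hz.symm)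
    exact tendsto_nhds_unique h1 h2
  simp only [hB, hfixC] at hB0
  have h6 : G (τ₀ : ℂ) / (denC γ τ₀ * denC γ τ₀) ^ m = G (τ₀ : ℂ) := sub_eq_zero.mp hB0
  have hden' : (denC γ τ₀ * denC γ τ₀) ^ m ≠ 0 := pow_ne_zero m (mul_ne_zero hd0 hd0)
  rw [div_eq_iff hden'] at h6
  have h7 : (denC γ τ₀ * denC γ τ₀) ^ m = 1 := by
    have := mul_left_cancel₀ hGne (show G (τ₀ : ℂ) * (denC γ τ₀ * denC γ τ₀) ^ m = G (τ₀ : ℂ) * 1 by
      rw [mul_one]; exact h6.symm)
    exact this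
  rw [pow_two]
  exact h7

/-- Multiplier lemma for a power of a stabilising element. -/
theorem multiplier_pow_mul_order (γ : SL(2, ℤ)) (τ₀ : ℍ) (hfix : γ • τ₀ = τ₀) (k : ℕ)
    {f : ℍ → ℂ} (hf : MDiff f) (hne : f ≠ 0) (hinv : ∀ τ, f ((γ ^ k) • τ) = f τ) :
    (denC γ τ₀ ^ 2) ^ (k * (taylorAt τ₀ f).order.toNat) = 1 := by
  have h := multiplier_pow_order (γ ^ k) τ₀ (pow_smul_of_fixed γ τ₀ hfix k) hf hne hinv
  rw [denC_pow_of_fixed γ τ₀ hfix k] at h
  rw [pow_mul, ← h]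
  ring

/-! ### The point `i` -/

theorem S_smul_I' : ModularGroup.S • UpperHalfPlane.I = UpperHalfPlane.I := by
  apply UpperHalfPlane.ext
  rw [coe_smul_eq_mobC]
  simp [mobC, ModularGroup.S]

theorem denC_S_I : denC ModularGroup.S (UpperHalfPlane.I : ℍ) = Complex.I := by
  simp [denC, ModularGroup.S]

/-- At `i`: an `S ^ k`-invariant holomorphic function has `2 ∣ k * order`. -/
theorem two_dvd_mul_order_I (k : ℕ) {f : ℍ → ℂ} (hf : MDiff f) (hne : f ≠ 0)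
    (hinv : ∀ τ, f ((ModularGroup.S ^ k) • τ) = f τ) :
    2 ∣ k * (taylorAt UpperHalfPlane.I f).order.toNat := by
  have h := multiplier_pow_mul_order ModularGroup.S UpperHalfPlane.I S_smul_I' k hf hne hinv
  rw [denC_S_I, Complex.I_sq] at h
  rcases Nat.even_or_odd (k * (taylorAt UpperHalfPlane.I f).order.toNat) with he | ho
  · exact even_iff_two_dvd.mp he
  · rw [ho.neg_one_pow] at h
    norm_num at h

/-! ### The point `ρ` -/

theorem rho_ne_one : (H64.rho : ℂ) ≠ 1 := by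
  intro h
  have := H64.rho_sq_add
  rw [h] at this
  norm_num at this

theorem rho_cube : (H64.rho : ℂ) ^ 3 = 1 := by
  linear_combination ((H64.rho : ℂ) - 1) * H64.rho_sq_add

theorem rho_pow_eq_one_iff (j : ℕ) : (H64.rho : ℂ) ^ j = 1 ↔ 3 ∣ j := by
  constructor
  · intro h
    have hj : j = 3 * (j / 3) + j % 3 := (Nat.div_add_mod j 3).symm
    rw [hj, pow_add, pow_mul, rho_cube, one_pow, one_mul] at h
    have hlt : j % 3 < 3 := Nat.mod_lt _ (by norm_num)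
    interval_cases hr : j % 3
    · exact Nat.dvd_of_mod_eq_zero hr
    · exact absurd (by simpa using h) rho_ne_one
    · exfalso
      have h2 := H64.rho_sq_add
      rw [h] at h2
      have h3 : (H64.rho : ℂ) = -2 := by linear_combination h2
      rw [h3] at h
      norm_num at h
  · rintro ⟨q, rfl⟩
    rw [pow_mul, rho_cube, one_pow]

theorem denC_ST_rho :
    denC (ModularGroup.S * ModularGroup.T) (H64.rho : ℍ) = (H64.rho : ℂ) + 1 := by
  rw [denC_coe, H64.denom_ST_rho]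

theorem denC_ST_rho_sq :
    denC (ModularGroup.S * ModularGroup.T) (H64.rho : ℍ) ^ 2 = (H64.rho : ℂ) := by
  rw [denC_ST_rho]
  linear_combination H64.rho_sq_add

/-- At `ρ`: an `(S * T) ^ k`-invariant holomorphic function has `3 ∣ k * order`. -/
theorem three_dvd_mul_order_rho (k : ℕ) {f : ℍ → ℂ} (hf : MDiff f) (hne : f ≠ 0)
    (hinv : ∀ τ, f (((ModularGroup.S * ModularGroup.T) ^ k) • τ) = f τ) :
    3 ∣ k * (taylorAt H64.rho f).order.toNat := by
  have h := multiplier_pow_mul_order (ModularGroup.S * ModularGroup.T) H64.rho H64.ST_smul_rho k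
    hf hne hinv
  rw [denC_ST_rho_sq] at h
  exact (rho_pow_eq_one_iff _).mp h

end Fermat.Agent.S24.H92
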